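import Fermat.Agent.RealRadicals.Criterion

/-!
# Real radicals of totally real numbers

A real root of index an odd prime cannot enlarge the totally real part of a real field, and a
square root enlarges it by square roots only. So a totally real number expressible by real
radicals is constructible.
-/

set_option autoImplicit false
set_option linter.style.haveILetI false

noncomputable section

namespace FA.RealRadicals

open Module IntermediateField Polynomial FA.LemniscateDivision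

/-- Real numbers obtained from `ℚ` by field operations and real roots of any index. -/
inductive IsRealRadical : ℝ → Prop
  | rat (q : ℚ) : IsRealRadical q
  | add {x y : ℝ} : IsRealRadical x → IsRealRadical y → IsRealRadical (x + y)
  | neg {x : ℝ} : IsRealRadical x → IsRealRadical (-x)
  | mul {x y : ℝ} : IsRealRadical x → IsRealRadical y → IsRealRadical (x * y)
  | inv {x : ℝ} : IsRealRadical x → IsRealRadical x⁻¹
  | root {x : ℝ} (n : ℕ) : 0 < n → IsRealRadical (x ^ n) → IsRealRadical x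

theorem isRealRadical_of_isConstructible {x : ℝ} (h : IsConstructible x) : IsRealRadical x := by
  induction h with
  | rat q => exact .rat q
  | add _ _ h1 h2 => exact h1.add h2
  | neg _ h1 => exact h1.neg
  | mul _ _ h1 h2 => exact h1.mul h2
  | inv _ h1 => exact h1.inv
  | @sqrt y _ h1 =>
    rcases le_total 0 y with hy | hy
    · exact .root 2 two_pos (by rwa [Real.sq_sqrt hy])
    · rw [Real.sqrt_eq_zero'.2 hy]
      simpa using IsRealRadical.rat 0

/-- All conjugates are real. -/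
def IsTotallyReal (z : ℂ) : Prop := ∀ σ : ℂ ≃+* ℂ, (σ z).im = 0

theorem IsTotallyReal.add {z w : ℂ} (hz : IsTotallyReal z) (hw : IsTotallyReal w) :
    IsTotallyReal (z + w) := fun σ => by rw [map_add, Complex.add_im, hz σ, hw σ, add_zero]

theorem IsTotallyReal.mul {z w : ℂ} (hz : IsTotallyReal z) (hw : IsTotallyReal w) :
    IsTotallyReal (z * w) := fun σ => by simp [Complex.mul_im, hz σ, hw σ]

theorem IsTotallyReal.aut {z : ℂ} (hz : IsTotallyReal z) (τ : ℂ ≃+* ℂ) : IsTotallyReal (τ z) :=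
  fun σ => hz (τ.trans σ)

/-- For an algebraic number: all roots of the minimal polynomial are real. -/
theorem isTotallyReal_iff {z : ℂ} (hz : IsIntegral ℚ z) :
    IsTotallyReal z ↔ ∀ r : ℂ, aeval r (minpoly ℚ z) = 0 → r.im = 0 := by
  refine ⟨fun h r hr => ?_, fun h σ => h _ ?_⟩
  · obtain ⟨σ, hσ⟩ := exists_aut_of_root hz hr
    exact hσ ▸ h σ
  · have e := Polynomial.aeval_algHom_apply (σ.toRingHom.toRatAlgHom) z (minpoly ℚ z)
    simpa [minpoly.aeval] using e

/-- A real field of finite degree whose totally real elements are constructible. -/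
def IsGood (K : IntermediateField ℚ ℂ) : Prop :=
  FiniteDimensional ℚ K ∧ (∀ z ∈ K, z.im = 0) ∧
    ∀ z ∈ K, IsTotallyReal z → z ∈ constructibleField

theorem isGood_bot : IsGood ⊥ :=
  ⟨inferInstance, fun z hz => by
    obtain ⟨q, rfl⟩ := IntermediateField.mem_bot.1 hz
    rw [eq_ratCast]; exact Complex.ratCast_im q,
  fun z hz _ => by
    obtain ⟨q, rfl⟩ := IntermediateField.mem_bot.1 hz
    exact constructibleField.algebraMap_mem q⟩

/-- The real numbers as an intermediate field over a real field. -/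
def realPart (K : IntermediateField ℚ ℂ) (hK : ∀ z ∈ K, z.im = 0) : IntermediateField K ℂ where
  carrier := {z | z.im = 0}
  mul_mem' {a b} ha hb := by
    have ha' : a.im = 0 := ha
    have hb' : b.im = 0 := hb
    show (a * b).im = 0
    simp [Complex.mul_im, ha', hb']
  add_mem' {a b} ha hb := by
    have ha' : a.im = 0 := ha
    have hb' : b.im = 0 := hb
    show (a + b).im = 0
    simp [ha', hb']
  algebraMap_mem' k := hK _ k.2
  inv_mem' a ha := by
    have ha' : a.im = 0 := ha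
    show a⁻¹.im = 0
    simp [Complex.inv_im, ha']

theorem exists_prime_root_of_unity_im_ne_zero {p : ℕ} (hp : p.Prime) (hodd : p ≠ 2) :
    ∃ ζ : ℂ, ζ ^ p = 1 ∧ ζ.im ≠ 0 := by
  have h := Complex.isPrimitiveRoot_exp p hp.ne_zero
  refine ⟨_, h.pow_eq_one, fun him => ?_⟩
  have hreal : Complex.exp (2 * Real.pi * Complex.I / p) =
      ((Complex.exp (2 * Real.pi * Complex.I / p)).re : ℂ) := Complex.ext rfl (by simpa using him)
  have h1 := h.pow_eq_one
  rw [hreal, ← Complex.ofReal_pow] at h1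
  have h2 : (Complex.exp (2 * Real.pi * Complex.I / p)).re = 1 :=
    (hp.odd_of_ne_two hodd).pow_injective (by
      show _ ^ p = (1 : ℝ) ^ p
      rw [one_pow]; exact_mod_cast h1)
  exact h.ne_one hp.one_lt (by rw [hreal, h2, Complex.ofReal_one])

/-- **One real root of prime index preserves goodness.** -/
theorem IsGood.adjoin_prime {K : IntermediateField ℚ ℂ} (hK : IsGood K) {α : ℝ} {p : ℕ}
    (hp : p.Prime) (hα : (α : ℂ) ^ p ∈ K) :
    ∃ K' : IntermediateField ℚ ℂ, K ≤ K' ∧ IsGood K' ∧ (α : ℂ) ∈ K' := by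
  by_cases hαK : (α : ℂ) ∈ K
  · exact ⟨K, le_rfl, hK, hαK⟩
  obtain ⟨hfin, hreal, hgood⟩ := hK
  set a : K := ⟨(α : ℂ) ^ p, hα⟩ with ha
  have hroot : aeval (α : ℂ) (X ^ p - C a : K[X]) = 0 := by simp [ha]
  have hint : IsIntegral K (α : ℂ) := ⟨_, monic_X_pow_sub_C a hp.ne_zero, hroot⟩
  haveI : FiniteDimensional K K⟮(α : ℂ)⟯ := adjoin.finiteDimensional hint
  haveI hfd : FiniteDimensional ℚ K⟮(α : ℂ)⟯ := FiniteDimensional.trans ℚ K K⟮(α : ℂ)⟯
  haveI : FiniteDimensional ℚ ((K⟮(α : ℂ)⟯).restrictScalars ℚ) := hfd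
  have hKα : K⟮(α : ℂ)⟯ ≤ realPart K hreal :=
    adjoin_simple_le_iff.2 (Complex.ofReal_im α)
  refine ⟨(K⟮(α : ℂ)⟯).restrictScalars ℚ,
    fun x hx => (K⟮(α : ℂ)⟯).algebraMap_mem (⟨x, hx⟩ : K),
    ⟨‹_›, fun z hz => hKα hz, fun y hy htr => ?_⟩, mem_adjoin_simple_self K _⟩
  have hy' : y ∈ K⟮(α : ℂ)⟯ := hy
  by_cases hyK : y ∈ K
  · exact hgood y hyK htr
  rcases hp.eq_two_or_odd' with rfl | hodd
  · -- a square root: the conjugate over `K` is totally real as well
    have hdeg : (minpoly K (α : ℂ)).natDegree = 2 := by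
      refine le_antisymm ?_ ((minpoly.two_le_natDegree_iff hint).2
        fun ⟨b, hb⟩ => hαK (hb ▸ b.2))
      have := natDegree_le_of_dvd (minpoly.dvd K _ hroot) (monic_X_pow_sub_C a two_ne_zero).ne_zero
      simpa [natDegree_X_pow_sub_C] using this
    have hmin : minpoly K (α : ℂ) = X ^ 2 - C a :=
      (eq_of_monic_of_dvd_of_natDegree_le (minpoly.monic hint) (monic_X_pow_sub_C a two_ne_zero)
        (minpoly.dvd K _ hroot) (by rw [natDegree_X_pow_sub_C, hdeg])).symm
    obtain ⟨u, v, huv⟩ : ∃ u v : K, y = (u : ℂ) + v * (α : ℂ) := by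
      obtain ⟨P, hP, hP'⟩ := (adjoin.powerBasis hint).exists_eq_aeval ⟨y, hy'⟩
      rw [adjoin.powerBasis_dim, hdeg] at hP
      obtain ⟨c₁, c₀, rfl⟩ := exists_eq_X_add_C_of_natDegree_le_one (by omega : P.natDegree ≤ 1)
      refine ⟨c₀, c₁, ?_⟩
      have := congrArg (fun t : K⟮(α : ℂ)⟯ => (t : ℂ)) hP'
      simp only [adjoin.powerBasis_gen] at this
      rw [this]
      simp
      ring
    let φ : K⟮(α : ℂ)⟯ →ₐ[K] ℂ := (algHomAdjoinIntegralEquiv K hint).symm
      ⟨-(α : ℂ), by
        rw [mem_aroots, hmin]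
        exact ⟨X_pow_sub_C_ne_zero two_pos a, by simp [ha]⟩⟩
    obtain ⟨τ, hτ⟩ := FA.Weight1.exists_auto_extending ((K⟮(α : ℂ)⟯).restrictScalars ℚ)
      φ.toRingHom
    have hτα : τ α = -(α : ℂ) := (hτ ⟨α, mem_adjoin_simple_self K _⟩).trans
      (algHomAdjoinIntegralEquiv_symm_apply_gen K hint _)
    have hτK : ∀ k : K, τ k = k := fun k =>
      (hτ ⟨k, (K⟮(α : ℂ)⟯).algebraMap_mem k⟩).trans (φ.commutes k)
    have hτy : τ y = (u : ℂ) - v * (α : ℂ) := by
      rw [huv, map_add, map_mul, hτK, hτK, hτα]; ring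
    have hu : ((u + u : K) : ℂ) = y + τ y := by rw [hτy, huv]; push_cast; ring
    have hprod : ((u * u - v * v * a : K) : ℂ) = y * τ y := by
      rw [hτy, huv, ha]; push_cast; ring
    have h1 := hgood _ (u + u).2 (hu.symm ▸ htr.add (htr.aut τ))
    have h2 := hgood _ (u * u - v * v * a).2 (hprod.symm ▸ htr.mul (htr.aut τ))
    rw [hu] at h1
    rw [hprod] at h2
    have h3 : y - τ y ∈ constructibleField := mem_constructibleField_of_sq (by
      have := sub_mem (mul_mem h1 h1) (mul_mem (_root_.natCast_mem constructibleField 4) h2)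
      convert this using 1
      push_cast
      ring)
    have h4 := div_mem (add_mem h1 h3) (_root_.natCast_mem constructibleField 2)
    convert h4 using 1
    push_cast
    ring
  · -- an odd index: `α` has a conjugate off the real line, `y` has none
    exfalso
    have hp2 : p ≠ 2 := fun e => by subst e; exact absurd hodd (by decide)
    have hirr : Irreducible (X ^ p - C a : K[X]) :=
      X_pow_sub_C_irreducible_of_prime hp fun b hb => hαK (by
        have hb' : ((b : ℂ).re : ℂ) = (b : ℂ) :=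
          Complex.ext rfl (by simp [hreal _ b.2])
        have hbc : (b : ℂ) ^ p = (α : ℂ) ^ p := by
          rw [← SubmonoidClass.coe_pow, hb, ha]
        rw [← hb', ← Complex.ofReal_pow, ← Complex.ofReal_pow, Complex.ofReal_inj] at hbc
        rw [← (hodd.pow_injective hbc), hb']
        exact b.2)
    have hmin : minpoly K (α : ℂ) = X ^ p - C a :=
      (minpoly.eq_of_irreducible_of_monic hirr hroot (monic_X_pow_sub_C a hp.ne_zero)).symm
    obtain ⟨ζ, hζ, hζim⟩ := exists_prime_root_of_unity_im_ne_zero hp hp2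
    let φ : K⟮(α : ℂ)⟯ →ₐ[K] ℂ := (algHomAdjoinIntegralEquiv K hint).symm
      ⟨ζ * (α : ℂ), by
        rw [mem_aroots, hmin]
        exact ⟨X_pow_sub_C_ne_zero hp.pos a, by simp [ha, mul_pow, hζ]⟩⟩
    have hφα : φ (AdjoinSimple.gen K (α : ℂ)) = ζ * (α : ℂ) :=
      algHomAdjoinIntegralEquiv_symm_apply_gen K hint _
    let M : IntermediateField K K⟮(α : ℂ)⟯ := (realPart K hreal).comap φ
    have hprime : (finrank K K⟮(α : ℂ)⟯).Prime := by
      rw [adjoin.finrank hint, hmin, natDegree_X_pow_sub_C]; exact hp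
    haveI := isSimpleOrder_of_finrank_prime (F := K) (E := K⟮(α : ℂ)⟯) hprime
    obtain ⟨τ, hτ⟩ := FA.Weight1.exists_auto_extending ((K⟮(α : ℂ)⟯).restrictScalars ℚ)
      φ.toRingHom
    have hyM : (⟨y, hy'⟩ : K⟮(α : ℂ)⟯) ∈ M := by
      show (φ _).im = 0
      rw [show φ ⟨y, hy'⟩ = τ y from (hτ ⟨y, hy'⟩).symm]
      exact htr τ
    rcases eq_bot_or_eq_top M with hM | hM
    · rw [hM, IntermediateField.mem_bot] at hyM
      obtain ⟨k, hk⟩ := hyM
      exact hyK ((show (k : ℂ) = y from congrArg Subtype.val hk) ▸ k.2)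
    · have h1 : (φ (AdjoinSimple.gen K (α : ℂ))).im = 0 :=
        (hM ▸ IntermediateField.mem_top : AdjoinSimple.gen K (α : ℂ) ∈ M)
      rw [hφα] at h1
      have hα0 : α ≠ 0 := fun e => hαK (by rw [e, Complex.ofReal_zero]; exact zero_mem K)
      simp [Complex.mul_im, hα0] at h1
      exact hζim h1

/-- Real roots of any index preserve goodness. -/
theorem IsGood.adjoin_root : ∀ {n : ℕ}, 0 < n → ∀ {K : IntermediateField ℚ ℂ}, IsGood K →
    ∀ {α : ℝ}, (α : ℂ) ^ n ∈ K →
      ∃ K' : IntermediateField ℚ ℂ, K ≤ K' ∧ IsGood K' ∧ (α : ℂ) ∈ K' := by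
  intro n
  induction n using Nat.strong_induction_on with
  | _ n ih =>
    intro hn K hK α hα
    by_cases h1 : n = 1
    · subst h1; exact ⟨K, le_rfl, hK, by simpa using hα⟩
    have hp := Nat.minFac_prime h1
    obtain ⟨m, hm⟩ := Nat.minFac_dvd n
    have hm0 : 0 < m := Nat.pos_of_ne_zero fun e => by simp [e] at hm; omega
    obtain ⟨K₁, hle, hK₁, hmem⟩ := hK.adjoin_prime hp (α := α ^ m) (by
      rw [Complex.ofReal_pow, ← pow_mul, mul_comm, ← hm]; exact hα)
    obtain ⟨K₂, hle', hK₂, hmem'⟩ := ih m (by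
      rw [hm]; exact lt_mul_of_one_lt_left hm0 hp.one_lt) hm0 hK₁ (α := α)
      (by rwa [← Complex.ofReal_pow])
    exact ⟨K₂, hle.trans hle', hK₂, hmem'⟩

theorem exists_good {x : ℝ} (h : IsRealRadical x) {K : IntermediateField ℚ ℂ} (hK : IsGood K) :
    ∃ K' : IntermediateField ℚ ℂ, K ≤ K' ∧ IsGood K' ∧ (x : ℂ) ∈ K' := by
  induction h generalizing K with
  | rat q =>
    refine ⟨K, le_rfl, hK, ?_⟩
    rw [Complex.ofReal_ratCast]
    exact SubfieldClass.ratCast_mem K q
  | add _ _ h1 h2 =>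
    obtain ⟨K₁, l1, g1, m1⟩ := h1 hK
    obtain ⟨K₂, l2, g2, m2⟩ := h2 g1
    refine ⟨K₂, l1.trans l2, g2, ?_⟩
    rw [Complex.ofReal_add]
    exact add_mem (l2 m1) m2
  | neg _ h1 =>
    obtain ⟨K₁, l1, g1, m1⟩ := h1 hK
    refine ⟨K₁, l1, g1, ?_⟩
    rw [Complex.ofReal_neg]
    exact neg_mem m1
  | mul _ _ h1 h2 =>
    obtain ⟨K₁, l1, g1, m1⟩ := h1 hK
    obtain ⟨K₂, l2, g2, m2⟩ := h2 g1
    refine ⟨K₂, l1.trans l2, g2, ?_⟩
    rw [Complex.ofReal_mul]
    exact mul_mem (l2 m1) m2
  | inv _ h1 =>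
    obtain ⟨K₁, l1, g1, m1⟩ := h1 hK
    refine ⟨K₁, l1, g1, ?_⟩
    rw [Complex.ofReal_inv]
    exact inv_mem m1
  | @root y n hn _ h1 =>
    obtain ⟨K₁, l1, g1, m1⟩ := h1 hK
    obtain ⟨K₂, l2, g2, m2⟩ := g1.adjoin_root hn (α := y) (by rwa [← Complex.ofReal_pow])
    exact ⟨K₂, l1.trans l2, g2, m2⟩

/-- **Hölder's theorem**: a totally real number expressible by real radicals is constructible. -/
theorem isRealRadical_iff_isConstructible {x : ℝ} (hx : IsTotallyReal (x : ℂ)) :
    IsRealRadical x ↔ IsConstructible x := by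
  refine ⟨fun h => ?_, isRealRadical_of_isConstructible⟩
  obtain ⟨K, -, hK, hm⟩ := exists_good h isGood_bot
  exact ofReal_mem_constructibleField.1 (hK.2.2 _ hm hx)

end FA.RealRadicals

end
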