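import Fermat.Agent.LemniscateDivision.Constructible
import Fermat.Agent.Period.AutC
import Fermat.Agent.Weight1.FiniteImage

/-!
# The exact criterion for constructibility

The field automorphisms of `ℂ` carry constructible numbers to constructible numbers. So the
splitting field of the minimal polynomial of a constructible number consists of constructible
numbers and, having a primitive element, has two-power degree.
-/

set_option autoImplicit false
set_option linter.style.haveILetI false

noncomputable section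

namespace FA.RealRadicals

open Module IntermediateField Polynomial FA.LemniscateDivision

theorem aut_I (σ : ℂ ≃+* ℂ) : σ Complex.I = Complex.I ∨ σ Complex.I = -Complex.I := by
  refine sq_eq_sq_iff_eq_or_eq_neg.1 ?_
  rw [← map_pow, Complex.I_sq, map_neg, map_one]

/-- Automorphisms of `ℂ` preserve constructibility. -/
theorem aut_mem_constructibleField (σ : ℂ ≃+* ℂ) {z : ℂ} (hz : z ∈ constructibleField) :
    σ z ∈ constructibleField := by
  have key : ∀ x : ℝ, IsConstructible x → σ (x : ℂ) ∈ constructibleField := by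
    intro x hx
    induction hx with
    | rat q =>
      rw [Complex.ofReal_ratCast, map_ratCast]
      exact SubfieldClass.ratCast_mem constructibleField q
    | add _ _ h1 h2 =>
      rw [Complex.ofReal_add, map_add]
      exact add_mem h1 h2
    | neg _ h1 =>
      rw [Complex.ofReal_neg, map_neg]
      exact neg_mem h1
    | mul _ _ h1 h2 =>
      rw [Complex.ofReal_mul, map_mul]
      exact mul_mem h1 h2
    | inv _ h1 =>
      rw [Complex.ofReal_inv, map_inv₀]
      exact inv_mem h1
    | @sqrt y _ h1 =>
      rcases le_total 0 y with hy | hy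
      · refine mem_constructibleField_of_sq ?_
        rwa [← map_pow, ← Complex.ofReal_pow, Real.sq_sqrt hy]
      · rw [Real.sqrt_eq_zero'.2 hy, Complex.ofReal_zero, map_zero]
        exact zero_mem _
  obtain ⟨hr, hi⟩ := mem_constructibleField.1 hz
  rw [← Complex.re_add_im z, map_add, map_mul]
  refine add_mem (key _ hr) (mul_mem (key _ hi) ?_)
  rcases aut_I σ with e | e <;> rw [e]
  · exact I_mem_constructibleField
  · exact neg_mem I_mem_constructibleField

/-- Every root of the minimal polynomial is a conjugate under an automorphism of `ℂ`. -/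
theorem exists_aut_of_root {z r : ℂ} (hz : IsIntegral ℚ z) (hr : aeval r (minpoly ℚ z) = 0) :
    ∃ σ : ℂ ≃+* ℂ, σ z = r := by
  haveI : FiniteDimensional ℚ ℚ⟮z⟯ := adjoin.finiteDimensional hz
  let φ : ℚ⟮z⟯ →ₐ[ℚ] ℂ := (algHomAdjoinIntegralEquiv ℚ hz).symm
    ⟨r, Polynomial.mem_aroots.2 ⟨minpoly.ne_zero hz, hr⟩⟩
  obtain ⟨σ, hσ⟩ := FA.Weight1.exists_auto_extending ℚ⟮z⟯ φ.toRingHom
  exact ⟨σ, (hσ ⟨z, mem_adjoin_simple_self ℚ z⟩).trans
    (algHomAdjoinIntegralEquiv_symm_apply_gen ℚ hz _)⟩

/-- **A number is constructible exactly if the Galois group of its minimal polynomial is a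
`2`-group.** -/
theorem mem_constructibleField_iff_gal {z : ℂ} :
    z ∈ constructibleField ↔ IsIntegral ℚ z ∧ ∃ k, Nat.card (minpoly ℚ z).Gal = 2 ^ k := by
  have hdata : IsIntegral ℚ z → ∃ F : IntermediateField ℚ ℂ,
      F = IntermediateField.adjoin ℚ ((minpoly ℚ z).rootSet ℂ) ∧ FiniteDimensional ℚ F ∧
        IsGalois ℚ F ∧ Nat.card (minpoly ℚ z).Gal = finrank ℚ F := by
    intro hz
    let F : IntermediateField ℚ ℂ := IntermediateField.adjoin ℚ ((minpoly ℚ z).rootSet ℂ)
    haveI : (minpoly ℚ z).IsSplittingField ℚ F :=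
      adjoin_rootSet_isSplittingField (IsAlgClosed.splits _)
    have hfd : FiniteDimensional ℚ F :=
      Polynomial.IsSplittingField.finiteDimensional F (minpoly ℚ z)
    have : Normal ℚ F := Normal.of_isSplittingField (minpoly ℚ z)
    refine ⟨F, rfl, hfd, ⟨⟩, ?_⟩
    rw [Polynomial.Gal.card_of_separable (minpoly.irreducible hz).separable]
    exact (Polynomial.IsSplittingField.algEquiv F (minpoly ℚ z)).toLinearEquiv.finrank_eq.symm
  constructor
  · intro h
    obtain ⟨k, hk⟩ := natDegree_minpoly_dvd_two_pow h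
    have hz : IsIntegral ℚ z := by
      by_contra hn
      rw [minpoly.eq_zero hn, natDegree_zero] at hk
      exact pow_ne_zero k two_ne_zero (zero_dvd_iff.1 hk)
    obtain ⟨F, hF, hfd, hgal, hcard⟩ := hdata hz
    refine ⟨hz, ?_⟩
    have hsub : F ≤ constructibleField := by
      rw [hF, IntermediateField.adjoin_le_iff]
      intro r hr
      obtain ⟨σ, hσ⟩ := exists_aut_of_root hz (Polynomial.mem_rootSet.1 hr).2
      exact hσ ▸ aut_mem_constructibleField σ h
    obtain ⟨θ, hθ⟩ := Field.exists_primitive_element ℚ F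
    obtain ⟨j, hj⟩ := natDegree_minpoly_dvd_two_pow (hsub θ.2)
    have e : minpoly ℚ (θ : ℂ) = minpoly ℚ θ :=
      minpoly.algebraMap_eq (B := F) (B' := ℂ) (algebraMap F ℂ).injective θ
    rw [e, ← IntermediateField.adjoin.finrank (IsIntegral.of_finite ℚ θ), hθ,
      IntermediateField.finrank_top', ← hcard, Nat.dvd_prime_pow Nat.prime_two] at hj
    obtain ⟨i, -, hi⟩ := hj
    exact ⟨i, hi⟩
  · rintro ⟨hz, k, hk⟩
    obtain ⟨F, hF, hfd, hgal, hcard⟩ := hdata hz
    refine mem_constructibleField_of_isPGroup F (IsPGroup.of_card (n := k) ?_) ?_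
    · rw [IsGalois.card_aut_eq_finrank, ← hcard, hk]
    · rw [hF]
      exact subset_adjoin ℚ _
        (Polynomial.mem_rootSet.2 ⟨minpoly.ne_zero hz, minpoly.aeval ℚ z⟩)

end FA.RealRadicals

end
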